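import Mathlib
import Fermat.Agent.LT.T2.Spec
import Fermat.Agent.LT.T2.H886.CuspAlg

/-!
# Row LT, tower T2: GENERIC ASSEMBLY CORE for the leaves T2.09 / T2.29 (helper560)

OFF-MAIN.  Vocabulary: `LT/H556/A0.lean`, `LT/T1/Spec.lean`, `LT/T2/Spec.lean` (v3) and the shared
asset `LT/T2/H886/CuspAlg.lean` of helper886 (pairing lemmas), byte-identical copies.

* `Cls560 K`: a frame `F` and a class `P` of continuous bounded functions on `GL₂(𝔸_K)`, closed
  under linear combinations, on which the pairing of the frame is definite.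
* `V560 d`: the pre-Hilbert space of the class, `inner x y = pair F y x`.
* `spectral560`: the abstract spectral theorem `T2.AbstractSpectral` applied to `V560 d` and to a
  family `Op` of operators with a sub-family `Cp` (Hilbert--Schmidt, regular, non-degenerate):
  an orthonormal complete family of joint eigenfunctions of `Op` in the class.

No automorphic content: the same statement serves the class of A0 (`T2.IsCuspFn`, `T2.IsOp`) and
the class of T5 (`T2.IsCuspT`, `T2.IsOpT`).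
-/

set_option autoImplicit false

open IsDedekindDomain NumberField MeasureTheory
open Fermat.Agent.LT.H556.A0 Fermat.Agent.LT.T2 Fermat.Agent.LT.T2.H886

noncomputable section

namespace Fermat.Agent.LT.T2.H560

variable {K : Type} [Field K] [NumberField K]

attribute [local instance] Fermat.Agent.LT.T2.borelG

/-! ## 1. The class and its pre-Hilbert space -/

/-- A frame and a class of continuous bounded functions, closed under linear combinations, on
which the pairing of the frame is definite. -/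
structure Cls560 (K : Type) [Field K] [NumberField K] where
  F : Frame K
  P : (G K → ℂ) → Prop
  zero : P (fun _ => 0)
  add : ∀ {φ ψ : G K → ℂ}, P φ → P ψ → P (fun g => φ g + ψ g)
  smul : ∀ (c : ℂ) {φ : G K → ℂ}, P φ → P (fun g => c * φ g)
  cont : ∀ {φ : G K → ℂ}, P φ → Continuous φ
  bdd : ∀ {φ : G K → ℂ}, P φ → ∃ C : ℝ, ∀ g : G K, ‖φ g‖ ≤ C
  definite : ∀ {φ : G K → ℂ}, P φ → pair F φ φ = 0 → ∀ g : G K, φ g = 0

/-- The `ℂ`-vector space of the class. -/
def sub560 (d : Cls560 K) : Submodule ℂ (G K → ℂ) where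
  carrier := {φ | d.P φ}
  add_mem' := fun hφ hψ => d.add hφ hψ
  zero_mem' := d.zero
  smul_mem' := fun c _ hφ => d.smul c hφ

/-- The pre-Hilbert space of the class (a type synonym of the submodule, so that no topology is
inherited from the functions). -/
def V560 (d : Cls560 K) : Type := sub560 d

instance instAddCommGroupV560 (d : Cls560 K) : AddCommGroup (V560 d) :=
  inferInstanceAs (AddCommGroup (sub560 d))

instance instModuleV560 (d : Cls560 K) : Module ℂ (V560 d) :=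
  inferInstanceAs (Module ℂ (sub560 d))

/-- The underlying function. -/
def fn560 {d : Cls560 K} (x : V560 d) : G K → ℂ := (x : sub560 d).1

theorem fn560_mem {d : Cls560 K} (x : V560 d) : d.P (fn560 x) := (x : sub560 d).2

/-- The element of the space attached to a function of the class. -/
def mk560 (d : Cls560 K) (φ : G K → ℂ) (h : d.P φ) : V560 d := (⟨φ, h⟩ : sub560 d)

@[simp] theorem fn560_mk560 (d : Cls560 K) (φ : G K → ℂ) (h : d.P φ) :
    fn560 (mk560 d φ h) = φ := rfl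

theorem ext560 {d : Cls560 K} {x y : V560 d} (h : fn560 x = fn560 y) : x = y :=
  Subtype.ext h

theorem fn560_add {d : Cls560 K} (x y : V560 d) :
    fn560 (x + y) = fun g => fn560 x g + fn560 y g := rfl

theorem fn560_smul {d : Cls560 K} (c : ℂ) (x : V560 d) :
    fn560 (c • x) = fun g => c * fn560 x g := rfl

theorem fn560_zero {d : Cls560 K} : fn560 (0 : V560 d) = fun _ => 0 := rfl

theorem fn560_neg {d : Cls560 K} (x : V560 d) : fn560 (-x) = fun g => -fn560 x g := rfl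

theorem fn560_sub {d : Cls560 K} (x y : V560 d) :
    fn560 (x - y) = fun g => fn560 x g - fn560 y g := rfl

instance instCoreV560 (d : Cls560 K) : InnerProductSpace.Core ℂ (V560 d) where
  inner x y := pair d.F (fn560 y) (fn560 x)
  conj_inner_symm x y := pair_conj_symm886 d.F (fn560 x) (fn560 y)
  re_inner_nonneg x := nsq_nonneg886 d.F (fn560 x)
  add_left x y z := by
    obtain ⟨C, hC⟩ := d.bdd (fn560_mem x)
    obtain ⟨C', hC'⟩ := d.bdd (fn560_mem y)
    obtain ⟨C'', hC''⟩ := d.bdd (fn560_mem z)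
    exact pair_add_right886 d.F (d.cont (fn560_mem x)) hC (d.cont (fn560_mem y)) hC'
      (d.cont (fn560_mem z)) hC''
  smul_left x y r := pair_const_mul_right886 d.F r (fn560 x) (fn560 y)
  definite x hx := ext560 (funext (d.definite (fn560_mem x) hx))

instance instNormedAddCommGroupV560 (d : Cls560 K) : NormedAddCommGroup (V560 d) :=
  InnerProductSpace.Core.toNormedAddCommGroup (𝕜 := ℂ)

instance instInnerProductSpaceV560 (d : Cls560 K) : InnerProductSpace ℂ (V560 d) :=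
  InnerProductSpace.ofCore _

theorem inner560 {d : Cls560 K} (x y : V560 d) :
    inner ℂ x y = pair d.F (fn560 y) (fn560 x) := rfl

theorem norm_sq560 {d : Cls560 K} (x : V560 d) : ‖x‖ ^ 2 = nsq d.F (fn560 x) := by
  have h := @norm_sq_eq_re_inner ℂ (V560 d) _ _ _ x
  rw [h, inner560]
  rfl

/-! ## 2. Operators of the class -/

/-- `T` maps the class to itself and is additive and homogeneous there. -/
structure IsLinOn560 (d : Cls560 K) (T : (G K → ℂ) → (G K → ℂ)) : Prop where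
  pres : ∀ φ : G K → ℂ, d.P φ → d.P (T φ)
  lin : ∀ (φ ψ : G K → ℂ) (c : ℂ), d.P φ → d.P ψ →
    T (fun g => φ g + c * ψ g) = fun g => T φ g + c * T ψ g

theorem IsLinOn560.map_zero {d : Cls560 K} {T : (G K → ℂ) → (G K → ℂ)} (h : IsLinOn560 d T) :
    T (fun _ => 0) = fun _ => 0 := by
  have h1 := h.lin (fun _ => 0) (fun _ => 0) 1 d.zero d.zero
  have e : (fun _ : G K => (0 : ℂ) + 1 * 0) = fun _ => 0 := by
    funext g
    simp
  rw [e] at h1
  funext g
  have h2 := congrFun h1 g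
  simp only [one_mul] at h2
  have h3 : T (fun _ => 0) g + T (fun _ => 0) g = T (fun _ => 0) g + 0 := by
    rw [add_zero]
    exact h2.symm
  exact add_left_cancel h3

theorem IsLinOn560.map_add {d : Cls560 K} {T : (G K → ℂ) → (G K → ℂ)} (h : IsLinOn560 d T)
    {φ ψ : G K → ℂ} (hφ : d.P φ) (hψ : d.P ψ) :
    T (fun g => φ g + ψ g) = fun g => T φ g + T ψ g := by
  have h1 := h.lin φ ψ 1 hφ hψ
  simpa only [one_mul] using h1

theorem IsLinOn560.map_smul {d : Cls560 K} {T : (G K → ℂ) → (G K → ℂ)} (h : IsLinOn560 d T)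
    (c : ℂ) {φ : G K → ℂ} (hφ : d.P φ) :
    T (fun g => c * φ g) = fun g => c * T φ g := by
  have h1 := h.lin (fun _ => 0) φ c d.zero hφ
  rw [h.map_zero] at h1
  simpa only [zero_add] using h1

/-- The linear map of the pre-Hilbert space attached to an operator of the class. -/
def lin560 (d : Cls560 K) (T : (G K → ℂ) → (G K → ℂ)) (h : IsLinOn560 d T) :
    V560 d →ₗ[ℂ] V560 d where
  toFun x := mk560 d (T (fn560 x)) (h.pres _ (fn560_mem x))
  map_add' x y := ext560 (by
    show T (fn560 (x + y)) = fun g => T (fn560 x) g + T (fn560 y) g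
    rw [fn560_add]
    exact h.map_add (fn560_mem x) (fn560_mem y))
  map_smul' c x := ext560 (by
    show T (fn560 (c • x)) = fun g => c * T (fn560 x) g
    rw [fn560_smul]
    exact h.map_smul c (fn560_mem x))

theorem fn560_lin560 (d : Cls560 K) (T : (G K → ℂ) → (G K → ℂ)) (h : IsLinOn560 d T)
    (x : V560 d) : fn560 (lin560 d T h x) = T (fn560 x) := rfl

/-! ## 3. The spectral theorem for the class -/

/-- **The abstract spectral theorem applied to a class.**  `Op` is a commuting family of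
operators of the class, bounded in `L²`, closed under adjoints; `Cp ⊆ Op` is Hilbert--Schmidt,
regular and non-degenerate.  Then the class has an orthonormal complete family of joint
eigenfunctions of `Op`. -/
theorem spectral560 (hAbs : AbstractSpectral) (d : Cls560 K)
    (Op Cp : ((G K → ℂ) → (G K → ℂ)) → Prop)
    (hsub : ∀ T, Cp T → Op T)
    (hlin : ∀ T, Op T → IsLinOn560 d T)
    (hbdd : ∀ T, Op T → ∃ C : ℝ, ∀ φ : G K → ℂ, d.P φ → nsq d.F (T φ) ≤ C * nsq d.F φ)
    (hcomm : ∀ S T, Op S → Op T → ∀ φ : G K → ℂ, d.P φ → S (T φ) = T (S φ))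
    (hadj : ∀ T, Op T → ∃ T', Op T' ∧ ∀ φ ψ : G K → ℂ, d.P φ → d.P ψ →
      pair d.F (T φ) ψ = pair d.F φ (T' ψ))
    (hhs : ∀ T, Cp T → ∃ C : ℝ, ∀ (n : ℕ) (φ : Fin n → G K → ℂ), (∀ i, d.P (φ i)) →
      (∀ i j, pair d.F (φ i) (φ j) = if i = j then 1 else 0) →
      ∑ i, nsq d.F (T (φ i)) ≤ C)
    (hreg : ∀ T, Cp T → ∀ φ : ℕ → G K → ℂ, (∀ k, d.P (φ k)) →
      (∀ ε : ℝ, 0 < ε → ∃ N : ℕ, ∀ k ≥ N, ∀ l ≥ N,
        nsq d.F (fun g => φ k g - φ l g) < ε) →
      ∃ ψ : G K → ℂ, d.P ψ ∧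
        Filter.Tendsto (fun k => nsq d.F (fun g => T (φ k) g - ψ g)) Filter.atTop (nhds 0))
    (happ : ∀ φ : G K → ℂ, d.P φ → ∀ ε : ℝ, 0 < ε →
      ∃ T, Cp T ∧ nsq d.F (fun g => T φ g - φ g) < ε) :
    ∃ (ι : Type) (u : ι → G K → ℂ), (∀ j, d.P (u j)) ∧ (∀ j, pair d.F (u j) (u j) = 1) ∧
      (∀ i j, i ≠ j → pair d.F (u i) (u j) = 0) ∧
      (∀ T, Op T → ∀ j, ∃ c : ℂ, ∀ g : G K, T (u j) g = c * u j g) ∧
      ∀ φ : G K → ℂ, d.P φ → HasSum (fun j => ‖pair d.F φ (u j)‖ ^ 2) (nsq d.F φ) := by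
  classical
  let 𝒜 : Set (V560 d →ₗ[ℂ] V560 d) := {A | ∃ T, ∃ hT : Op T, A = lin560 d T (hlin T hT)}
  let 𝒞 : Set (V560 d →ₗ[ℂ] V560 d) :=
    {A | ∃ T, ∃ hT : Cp T, A = lin560 d T (hlin T (hsub T hT))}
  have h1 : 𝒞 ⊆ 𝒜 := by
    rintro A ⟨T, hT, rfl⟩
    exact ⟨T, hsub T hT, rfl⟩
  have h2 : ∀ A ∈ 𝒜, ∀ B ∈ 𝒜, A ∘ₗ B = B ∘ₗ A := by
    rintro A ⟨S, hS, rfl⟩ B ⟨T, hT, rfl⟩
    apply LinearMap.ext
    intro x
    apply ext560
    show S (T (fn560 x)) = T (S (fn560 x))
    exact hcomm S T hS hT _ (fn560_mem x)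
  have h3 : ∀ A ∈ 𝒜, ∃ B ∈ 𝒜, ∀ x y : V560 d, inner ℂ (A x) y = inner ℂ x (B y) := by
    rintro A ⟨T, hT, rfl⟩
    obtain ⟨T', hT', hadj'⟩ := hadj T hT
    refine ⟨lin560 d T' (hlin T' hT'), ⟨T', hT', rfl⟩, fun x y => ?_⟩
    show pair d.F (fn560 y) (T (fn560 x)) = pair d.F (T' (fn560 y)) (fn560 x)
    have e := hadj' (fn560 x) (fn560 y) (fn560_mem x) (fn560_mem y)
    rw [← pair_conj_symm886 d.F (T (fn560 x)) (fn560 y), e, pair_conj_symm886]
  have h4 : ∀ A ∈ 𝒜, ∃ C : ℝ, ∀ x : V560 d, ‖A x‖ ≤ C * ‖x‖ := by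
    rintro A ⟨T, hT, rfl⟩
    obtain ⟨C, hC⟩ := hbdd T hT
    refine ⟨Real.sqrt (max C 0), fun x => ?_⟩
    have e1 : ‖lin560 d T (hlin T hT) x‖ ^ 2 ≤ (Real.sqrt (max C 0) * ‖x‖) ^ 2 := by
      rw [mul_pow, Real.sq_sqrt (le_max_right _ _), norm_sq560, norm_sq560, fn560_lin560]
      exact (hC _ (fn560_mem x)).trans
        (mul_le_mul_of_nonneg_right (le_max_left _ _) (nsq_nonneg886 d.F _))
    exact (pow_le_pow_iff_left₀ (norm_nonneg _)
      (mul_nonneg (Real.sqrt_nonneg _) (norm_nonneg _)) two_ne_zero).1 e1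
  have h5 : ∀ A ∈ 𝒞, ∃ C : ℝ, ∀ (n : ℕ) (x : Fin n → V560 d), Orthonormal ℂ x →
      ∑ i, ‖A (x i)‖ ^ 2 ≤ C := by
    rintro A ⟨T, hT, rfl⟩
    obtain ⟨C, hC⟩ := hhs T hT
    refine ⟨C, fun n x hx => ?_⟩
    have hx' := orthonormal_iff_ite.1 hx
    have e := hC n (fun i => fn560 (x i)) (fun i => fn560_mem _) (fun i j => by
      have := hx' j i
      rw [inner560] at this
      rw [this]
      by_cases hij : i = j
      · rw [if_pos hij, if_pos hij.symm]
      · rw [if_neg hij, if_neg (fun h => hij h.symm)])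
    have e2 : ∀ i, ‖lin560 d T (hlin T (hsub T hT)) (x i)‖ ^ 2 = nsq d.F (T (fn560 (x i))) :=
      fun i => by rw [norm_sq560, fn560_lin560]
    simp only [e2]
    exact e
  have h6 : ∀ A ∈ 𝒞, ∀ x : ℕ → V560 d, CauchySeq x →
      ∃ y : V560 d, Filter.Tendsto (fun k => A (x k)) Filter.atTop (nhds y) := by
    rintro A ⟨T, hT, rfl⟩ x hx
    have hc : ∀ ε : ℝ, 0 < ε → ∃ N : ℕ, ∀ k ≥ N, ∀ l ≥ N,
        nsq d.F (fun g => fn560 (x k) g - fn560 (x l) g) < ε := by
      intro ε hε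
      obtain ⟨N, hN⟩ := Metric.cauchySeq_iff.1 hx (Real.sqrt ε) (Real.sqrt_pos.2 hε)
      refine ⟨N, fun k hk l hl => ?_⟩
      have h := hN k hk l hl
      rw [dist_eq_norm] at h
      have h' : ‖x k - x l‖ ^ 2 < (Real.sqrt ε) ^ 2 :=
        pow_lt_pow_left₀ h (norm_nonneg _) two_ne_zero
      rw [Real.sq_sqrt hε.le, norm_sq560, fn560_sub] at h'
      exact h'
    obtain ⟨ψ, hψ, hlim⟩ := hreg T hT (fun k => fn560 (x k)) (fun k => fn560_mem _) hc
    refine ⟨mk560 d ψ hψ, ?_⟩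
    rw [tendsto_iff_norm_sub_tendsto_zero]
    have e : ∀ k, ‖lin560 d T (hlin T (hsub T hT)) (x k) - mk560 d ψ hψ‖
        = Real.sqrt (nsq d.F (fun g => T (fn560 (x k)) g - ψ g)) := by
      intro k
      have e1 := norm_sq560 (lin560 d T (hlin T (hsub T hT)) (x k) - mk560 d ψ hψ)
      rw [fn560_sub] at e1
      have e2 : (fun g => fn560 (lin560 d T (hlin T (hsub T hT)) (x k)) g
          - fn560 (mk560 d ψ hψ) g) = fun g => T (fn560 (x k)) g - ψ g := rfl
      rw [e2] at e1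
      rw [← e1, Real.sqrt_sq (norm_nonneg _)]
    simp only [e]
    have h0 := (Real.continuous_sqrt.tendsto 0).comp hlim
    rw [Real.sqrt_zero] at h0
    exact h0
  have h7 : ∀ x : V560 d, ∀ ε : ℝ, 0 < ε → ∃ A ∈ 𝒞, ‖A x - x‖ < ε := by
    intro x ε hε
    obtain ⟨T, hT, h⟩ := happ (fn560 x) (fn560_mem x) (ε ^ 2) (by positivity)
    refine ⟨lin560 d T (hlin T (hsub T hT)), ⟨T, hT, rfl⟩, ?_⟩
    have e1 := norm_sq560 (lin560 d T (hlin T (hsub T hT)) x - x)
    rw [fn560_sub] at e1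
    have e2 : (fun g => fn560 (lin560 d T (hlin T (hsub T hT)) x) g - fn560 x g)
        = fun g => T (fn560 x) g - fn560 x g := rfl
    rw [e2] at e1
    rw [← e1] at h
    exact lt_of_pow_lt_pow_left₀ 2 hε.le h
  obtain ⟨ι, e, hon, heig, hpars⟩ := hAbs (V560 d) 𝒜 𝒞 h1 h2 h3 h4 h5 h6 h7
  have hon' := orthonormal_iff_ite.1 hon
  refine ⟨ι, fun j => fn560 (e j), fun j => fn560_mem _, fun j => ?_, fun i j hij => ?_,
    fun T hT j => ?_, fun φ hφ => ?_⟩
  · have := hon' j j
    rw [inner560, if_pos rfl] at this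
    exact this
  · have := hon' j i
    rw [inner560, if_neg (fun h => hij h.symm)] at this
    exact this
  · obtain ⟨c, hc⟩ := heig (lin560 d T (hlin T hT)) ⟨T, hT, rfl⟩ j
    refine ⟨c, fun g => ?_⟩
    have := congrArg fn560 hc
    rw [fn560_lin560, fn560_smul] at this
    exact congrFun this g
  · have := hpars (mk560 d φ hφ)
    rw [norm_sq560] at this
    exact this

end Fermat.Agent.LT.T2.H560

end
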