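import Mathlib
import Fermat.Agent.LT.T2.SpecTau
import Fermat.Agent.LT.T2.H886.CuspAlg
import Fermat.Agent.LT.H129.HeckeLevel
import Fermat.Agent.LT.T2.H560.Core

/-!
# Row LT, tower T2, leaf T2.29 `LeafT09` (assembly `⇒ CuspSpecT`, class of T5): PROOF (helper560)

OFF-MAIN.  `leafT09_560 K : T2.LeafT09 K` VERBATIM against `LT/T2/SpecTau.lean`
(helper130@e2e090185, sha256 4d2b0fc2).  Imports: Mathlib, byte-identical copies of A0, T1/Spec,
T2/Spec (v3), T2/SpecTau, the assets `LT/T2/H886/CuspAlg.lean` (helper886) and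
`LT/H129/HeckeLevel.lean` (helper129), and the generic core `LT/T2/H560/Core.lean`.

Route: the cusp functions of the class `(𝔫, τ, r)` form a pre-Hilbert space (`clsT560`);
`spectral560` (the abstract spectral theorem, hypothesis `AbstractSpectral`) gives an orthonormal
complete family of joint eigenfunctions of all `IsOpT`; the eigen-data are read off pointwise:
Hecke eigenvalues from ONE coset system and ONE scalar uniformiser (`isHeckeEigenAt_of_one129`),
the means from the unique parametrisation of the sphere / circle, the central characters from the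
central shifts; the unitarity relations from `OpsAdjT`; `bound_a` from the sup norm.
`T1.T1Out`, `ConvCuspT`, `𝔫 ≠ ⊥` and `IsKType τ` are not used.
-/

set_option autoImplicit false

open IsDedekindDomain NumberField MeasureTheory AutomorphicForm
open Fermat.Agent.LT.H556.A0 Fermat.Agent.LT.T2 Fermat.Agent.LT.T2.H886 Fermat.Agent.LT.H129

noncomputable section

namespace Fermat.Agent.LT.T2.H560

variable {K : Type} [Field K] [NumberField K]

attribute [local instance] Fermat.Agent.LT.T2.borelG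

/-! ## 1. The class of T5 is closed under linear combinations -/

theorem isCuspT_zero560 (𝔫 : Ideal (𝓞 K)) (τ : G K → ℂ) (r : G K) :
    IsCuspT 𝔫 τ r (fun _ => 0) where
  aut :=
    { cont := continuous_const
      bdd := ⟨0, fun _ => by simp⟩
      left_inv := fun _ _ => rfl
      level_inv := fun _ _ _ => rfl
      arch_compact := fun _ _ _ _ => by simp
      ray := fun _ => rfl }
  cuspidal := isCuspidalFn_zero886

theorem isCuspT_add560 {𝔫 : Ideal (𝓞 K)} {τ : G K → ℂ} {r : G K} {φ ψ : G K → ℂ}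
    (hφ : IsCuspT 𝔫 τ r φ) (hψ : IsCuspT 𝔫 τ r ψ) : IsCuspT 𝔫 τ r (fun g => φ g + ψ g) := by
  obtain ⟨C, hC⟩ := hφ.aut.bdd
  obtain ⟨C', hC'⟩ := hψ.aut.bdd
  refine ⟨⟨hφ.aut.cont.add hψ.aut.cont, ⟨C + C', fun g => ?_⟩, fun γ g => ?_, fun u hu g => ?_,
    fun w k hk g => ?_, fun g => ?_⟩,
    isCuspidalFn_add886 hφ.aut.cont hC hψ.aut.cont hC' hφ.cuspidal hψ.cuspidal⟩
  · exact (norm_add_le _ _).trans (add_le_add (hC g) (hC' g))
  · show φ _ + ψ _ = φ g + ψ g
    rw [hφ.aut.left_inv, hψ.aut.left_inv]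
  · show φ _ + ψ _ = φ g + ψ g
    rw [hφ.aut.level_inv u hu, hψ.aut.level_inv u hu]
  · show φ _ + ψ _ = τ k * (φ g + ψ g)
    rw [hφ.aut.arch_compact w k hk, hψ.aut.arch_compact w k hk, mul_add]
  · show φ _ + ψ _ = φ g + ψ g
    rw [hφ.aut.ray, hψ.aut.ray]

theorem isCuspT_smul560 {𝔫 : Ideal (𝓞 K)} {τ : G K → ℂ} {r : G K} (c : ℂ) {φ : G K → ℂ}
    (hφ : IsCuspT 𝔫 τ r φ) : IsCuspT 𝔫 τ r (fun g => c * φ g) := by
  obtain ⟨C, hC⟩ := hφ.aut.bdd
  refine ⟨⟨continuous_const.mul hφ.aut.cont, ⟨‖c‖ * C, fun g => ?_⟩, fun γ g => ?_,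
    fun u hu g => ?_, fun w k hk g => ?_, fun g => ?_⟩,
    isCuspidalFn_const_mul886 c hφ.cuspidal⟩
  · rw [norm_mul]
    exact mul_le_mul_of_nonneg_left (hC g) (norm_nonneg _)
  · show c * φ _ = c * φ g
    rw [hφ.aut.left_inv]
  · show c * φ _ = c * φ g
    rw [hφ.aut.level_inv u hu]
  · show c * φ _ = τ k * (c * φ g)
    rw [hφ.aut.arch_compact w k hk, mul_left_comm]
  · show c * φ _ = c * φ g
    rw [hφ.aut.ray]

/-- The class of T5 as a `Cls560`. -/
def clsT560 (𝔫 : Ideal (𝓞 K)) (τ : G K → ℂ) (R : FrameR K) (hP : PairDefiniteT K 𝔫 τ) :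
    Cls560 K where
  F := R.F
  P := IsCuspT 𝔫 τ R.r
  zero := isCuspT_zero560 𝔫 τ R.r
  add := fun hφ hψ => isCuspT_add560 hφ hψ
  smul := fun c _ hφ => isCuspT_smul560 c hφ
  cont := fun h => h.aut.cont
  bdd := fun h => h.aut.bdd
  definite := fun h h0 => (hP R _ h).2 h0

/-! ## 2. Elements supported at one infinite place -/

/-- An element supported at the infinite place `w` is determined by its matrix at `w`. -/
theorem eq_of_localAtInf560 {w : InfinitePlace K} {g h : G K} (hg : IsLocalAtInf w g)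
    (hh : IsLocalAtInf w h) (e : infComp w g = infComp w h) : g = h := by
  apply G_ext129
  · intro w'
    by_cases hw : w' = w
    · subst hw
      apply Units.ext
      apply Matrix.ext
      intro i j
      have h1 := congrFun (congrFun e i) j
      exact (InfinitePlace.Completion.extensionEmbedding w').injective h1
    · rw [(trivAtInf_iff129 w' g).1 (hg.1 w' hw), (trivAtInf_iff129 w' h).1 (hh.1 w' hw)]
  · intro v
    rw [(trivAtFin_iff129 v g).1 (hg.2 v), (trivAtFin_iff129 v h).1 (hh.2 v)]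

theorem isSphereAt_unique560 {w : InfinitePlace K} {d : ℝ} {Y Y' : ℝ → ℝ → G K}
    (hY : IsSphereAt w d Y) (hY' : IsSphereAt w d Y') : Y = Y' := by
  funext α β
  exact eq_of_localAtInf560 (hY α β).1 (hY' α β).1 ((hY α β).2.trans (hY' α β).2.symm)

theorem isRotAt_unique560 {w : InfinitePlace K} {k k' : ℝ → G K}
    (hk : IsRotAt w k) (hk' : IsRotAt w k') : k = k' := by
  funext θ
  exact eq_of_localAtInf560 (hk θ).1 (hk' θ).1 ((hk θ).2.trans (hk' θ).2.symm)

theorem isTorusAt_unique560 {w : InfinitePlace K} {t : ℝ} {a a' : G K}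
    (ha : IsTorusAt w t a) (ha' : IsTorusAt w t a') : a = a' :=
  eq_of_localAtInf560 ha.1 ha'.1 (ha.2.trans ha'.2.symm)

/-! ## 3. Eigenvalues of a function of norm one -/

section Eigen

variable (F : Frame K) {u : G K → ℂ}

/-- A function of norm one does not vanish identically. -/
theorem exists_ne_zero560 (hn : pair F u u = 1) : ∃ g : G K, u g ≠ 0 := by
  by_contra hcon
  have e : u = fun _ => 0 := funext fun g => by
    by_contra h
    exact hcon ⟨g, h⟩
  rw [e] at hn
  unfold pair at hn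
  simp at hn

/-- The eigenvalue of an isometry has absolute value one. -/
theorem norm_eq_one_of_isometry560 (hn : pair F u u = 1) {b : ℂ}
    (h : pair F (fun g => b * u g) (fun g => b * u g) = pair F u u) : ‖b‖ = 1 := by
  rw [pair_const_mul_left886, pair_const_mul_right886, hn, mul_one, Complex.mul_conj] at h
  have h1 : Complex.normSq b = 1 := by exact_mod_cast h
  rw [Complex.normSq_eq_norm_sq] at h1
  have h2 : ‖b‖ ^ 2 = 1 ^ 2 := by rw [h1, one_pow]
  exact (pow_left_inj₀ (norm_nonneg _) zero_le_one two_ne_zero).1 h2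

/-- The eigenvalue of a self-adjoint operator is real. -/
theorem im_eq_zero_of_selfAdjoint560 (hn : pair F u u = 1) {m : ℂ}
    (h : pair F (fun g => m * u g) u = pair F u (fun g => m * u g)) : m.im = 0 := by
  rw [pair_const_mul_left886, pair_const_mul_right886, hn, mul_one, mul_one] at h
  exact Complex.conj_eq_iff_im.1 h.symm

/-- `T_v* = S_v⁻¹ T_v` on an eigenfunction: `conj c = c · conj b`. -/
theorem conj_eq_of_heckeAdj560 (hn : pair F u u = 1) {b c : ℂ} (hb : ‖b‖ = 1)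
    (h : pair F (fun g => c * u g) u = pair F u (fun g => c * b⁻¹ * u g)) :
    (starRingEnd ℂ) c = c * (starRingEnd ℂ) b := by
  rw [pair_const_mul_left886, pair_const_mul_right886, hn, mul_one, mul_one] at h
  have hb0 : b ≠ 0 := by
    intro h0
    rw [h0, norm_zero] at hb
    exact zero_ne_one hb
  have hcb : (starRingEnd ℂ) b ≠ 0 := by
    intro h0
    exact hb0 ((map_eq_zero _).1 h0)
  rw [map_mul, map_inv₀] at h
  have h2 : c * (starRingEnd ℂ) b
      = (starRingEnd ℂ) c * ((starRingEnd ℂ) b)⁻¹ * (starRingEnd ℂ) b :=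
    congrArg (fun x => x * (starRingEnd ℂ) b) h
  rw [mul_assoc, inv_mul_cancel₀ hcb, mul_one] at h2
  exact h2.symm

/-- The eigenvalue of a sum of `N` right translations on a bounded function has absolute value
at most `N`. -/
theorem norm_le_card_of_eigen560 {C : ℝ} (hb : ∀ g : G K, ‖u g‖ ≤ C) {g₀ : G K}
    (h0 : u g₀ ≠ 0) (H : Finset (G K)) (c : ℂ)
    (hc : ∀ g : G K, ∑ h ∈ H, u (g * h) = c * u g) : ‖c‖ ≤ (H.card : ℝ) := by
  have hbdd : BddAbove (Set.range fun g : G K => ‖u g‖) := by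
    refine ⟨C, ?_⟩
    rintro _ ⟨g, rfl⟩
    exact hb g
  have hle : ∀ g : G K, ‖u g‖ ≤ ⨆ g : G K, ‖u g‖ := fun g => le_ciSup hbdd g
  have hMpos : 0 < ⨆ g : G K, ‖u g‖ := lt_of_lt_of_le (norm_pos_iff.2 h0) (hle g₀)
  have key : ∀ g : G K, ‖c‖ * ‖u g‖ ≤ (H.card : ℝ) * ⨆ g : G K, ‖u g‖ := by
    intro g
    rw [← norm_mul, ← hc g]
    calc ‖∑ h ∈ H, u (g * h)‖ ≤ ∑ h ∈ H, ‖u (g * h)‖ := norm_sum_le _ _
      _ ≤ ∑ _h ∈ H, ⨆ g : G K, ‖u g‖ := Finset.sum_le_sum (fun h _ => hle _)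
      _ = (H.card : ℝ) * ⨆ g : G K, ‖u g‖ := by rw [Finset.sum_const, nsmul_eq_mul]
  by_contra hcon
  rw [not_le] at hcon
  have hcpos : 0 < ‖c‖ := lt_of_le_of_lt (Nat.cast_nonneg _) hcon
  have h1 : (⨆ g : G K, ‖u g‖) ≤ (H.card : ℝ) * (⨆ g : G K, ‖u g‖) / ‖c‖ := by
    apply ciSup_le
    intro g
    rw [le_div_iff₀ hcpos, mul_comm]
    exact key g
  have h2 : (⨆ g : G K, ‖u g‖) * ‖c‖ ≤ (H.card : ℝ) * ⨆ g : G K, ‖u g‖ :=
    (le_div_iff₀ hcpos).1 h1
  nlinarith

end Eigen

/-! ## 4. The assembly -/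

/-- **T2.29** `LeafT09`: the assembly for the class of T5. -/
theorem leafT09_560 (K : Type) [Field K] [NumberField K] : LeafT09 K := by
  intro _hT1 hAbs 𝔫 τ _h𝔫 _hτ hP _hC hHS hReg hApp hOG hOA R
  classical
  obtain ⟨hpres, hlin, hbdd, hcomm, hadj⟩ := hOG R
  obtain ⟨hadjS, hadjC, hadjH, hadjM, hadjMR⟩ := hOA R
  obtain ⟨ι, u, hu0, hnorm0, horth0, heig, hpars0⟩ := spectral560 hAbs (clsT560 𝔫 τ R hP)
    (IsOpT 𝔫 τ R.F) (fun T => ∃ f, IsSphTestT 𝔫 τ f ∧ T = conv R.F f)
    (by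
      rintro T ⟨f, hf, rfl⟩
      exact IsOpT.conv f hf)
    (fun T hT => ⟨hpres T hT, hlin T hT⟩)
    hbdd hcomm hadj
    (by
      rintro T ⟨f, hf, rfl⟩
      exact hHS R f hf.test)
    (by
      rintro T ⟨f, hf, rfl⟩
      exact hReg R f hf.test)
    (by
      intro φ hφ ε hε
      obtain ⟨f, hf, _, h⟩ := hApp R φ hφ ε hε
      exact ⟨conv R.F f, ⟨f, hf, rfl⟩, h⟩)
  have hu : ∀ j, IsCuspT 𝔫 τ R.r (u j) := hu0
  have hnorm : ∀ j, pair R.F (u j) (u j) = 1 := hnorm0
  have horth : ∀ i j, i ≠ j → pair R.F (u i) (u j) = 0 := horth0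
  have hpars : ∀ φ : G K → ℂ, IsCuspT 𝔫 τ R.r φ →
      HasSum (fun j => ‖pair R.F φ (u j)‖ ^ 2) (nsq R.F φ) := hpars0
  choose ev hev using heig
  choose H0 hH0 using fun v : HeightOneSpectrum (𝓞 K) => exists_heckeCosetSystem129 (K := K) v
  choose z0 hz0 using fun v : HeightOneSpectrum (𝓞 K) => exists_scalarUniformizer129 (K := K) v
  -- the square root of the norm of a place
  have hq0 : ∀ v : HeightOneSpectrum (𝓞 K),
      0 < Real.sqrt (Ideal.absNorm v.asIdeal : ℝ) := by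
    intro v
    apply Real.sqrt_pos.2
    have h1 : Ideal.absNorm v.asIdeal ≠ 0 := by
      rw [Ne, Ideal.absNorm_eq_zero_iff]
      exact v.ne_bot
    exact_mod_cast Nat.pos_of_ne_zero h1
  have hqC : ∀ v : HeightOneSpectrum (𝓞 K),
      ((Real.sqrt (Ideal.absNorm v.asIdeal : ℝ) : ℝ) : ℂ) ≠ 0 := by
    intro v
    exact_mod_cast (hq0 v).ne'
  -- the eigenvalues
  have exA : ∀ (j : ι) (v : HeightOneSpectrum (𝓞 K)), ∃ x : ℂ, ∀ hv : ¬ v.asIdeal ∣ 𝔫,
      x = ev (heckeSum (H0 v)) (IsOpT.hecke v hv (H0 v) (hH0 v)) j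
          / ((Real.sqrt (Ideal.absNorm v.asIdeal : ℝ) : ℝ) : ℂ) := by
    intro j v
    by_cases hv : ¬ v.asIdeal ∣ 𝔫
    · exact ⟨ev (heckeSum (H0 v)) (IsOpT.hecke v hv (H0 v) (hH0 v)) j
          / ((Real.sqrt (Ideal.absNorm v.asIdeal : ℝ) : ℝ) : ℂ), fun _ => rfl⟩
    · exact ⟨0, fun hv' => absurd hv' hv⟩
  choose a ha using exA
  have exB : ∀ (j : ι) (v : HeightOneSpectrum (𝓞 K)), ∃ x : ℂ, ∀ hv : ¬ v.asIdeal ∣ 𝔫,
      x = ev (shift (z0 v)) (IsOpT.shift v hv (z0 v) (hz0 v)) j := by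
    intro j v
    by_cases hv : ¬ v.asIdeal ∣ 𝔫
    · exact ⟨ev (shift (z0 v)) (IsOpT.shift v hv (z0 v) (hz0 v)) j, fun _ => rfl⟩
    · exact ⟨1, fun hv' => absurd hv' hv⟩
  choose b hb using exB
  have exC : ∀ (j : ι) (z : G K), ∃ x : ℂ, ∀ (w : InfinitePlace K)
      (hz : IsArchPosScalar w z), x = ev (shift z) (IsOpT.central w z hz) j := by
    intro j z
    by_cases h : ∃ w : InfinitePlace K, IsArchPosScalar w z
    · obtain ⟨w₀, hz₀⟩ := h
      exact ⟨ev (shift z) (IsOpT.central w₀ z hz₀) j, fun _ _ => rfl⟩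
    · exact ⟨1, fun w hz => absurd ⟨w, hz⟩ h⟩
  choose c hc0 using exC
  have hc : ∀ j (w : InfinitePlace K) (z : G K) (hz : IsArchPosScalar w z), c j z
        = ev (shift z) (IsOpT.central w z hz) j := fun j w z hz => hc0 j z w hz
  have exM : ∀ (j : ι) (w : InfinitePlace K) (d : ℝ), ∃ x : ℂ,
      (∀ (hw : w.IsComplex) (hd : 0 < d) (Y : ℝ → ℝ → G K) (hY : IsSphereAt w d Y),
        x = ev (sphereMean Y) (IsOpT.sphere w hw d hd Y hY) j) ∧
      (∀ (hw : w.IsReal) (ht : 0 < d) (k : ℝ → G K) (y : G K)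
        (hk : IsRotAt w k) (hy : IsTorusAt w d y),
        x = ev (circleMeanT τ k y) (IsOpT.circle w hw d ht k y hk hy) j) ∧
      ((w.IsComplex → ¬ ∃ Y : ℝ → ℝ → G K, IsSphereAt w d Y) →
        (w.IsReal → ¬ ∃ kx : (ℝ → G K) × G K, IsRotAt w kx.1 ∧ IsTorusAt w d kx.2) →
        x = 0) := by
    intro j w d
    by_cases hd : 0 < d
    · by_cases hw : w.IsComplex
      · have hr : ¬ w.IsReal := fun hr => (InfinitePlace.not_isComplex_iff_isReal.2 hr) hw
        by_cases hex : ∃ Y : ℝ → ℝ → G K, IsSphereAt w d Y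
        · obtain ⟨Y₀, hY₀⟩ := hex
          refine ⟨ev (sphereMean Y₀) (IsOpT.sphere w hw d hd Y₀ hY₀) j, ?_, ?_, ?_⟩
          · intro _ _ Y hY
            obtain rfl : Y₀ = Y := isSphereAt_unique560 hY₀ hY
            rfl
          · intro hr' _ _ _ _ _
            exact absurd hr' hr
          · intro h1 _
            exact absurd ⟨Y₀, hY₀⟩ (h1 hw)
        · refine ⟨0, ?_, ?_, ?_⟩
          · intro _ _ Y hY
            exact absurd ⟨Y, hY⟩ hex
          · intro hr' _ _ _ _ _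
            exact absurd hr' hr
          · intro _ _
            rfl
      · have hr : w.IsReal := InfinitePlace.not_isComplex_iff_isReal.1 hw
        by_cases hex : ∃ kx : (ℝ → G K) × G K, IsRotAt w kx.1 ∧ IsTorusAt w d kx.2
        · obtain ⟨⟨k₀, y₀⟩, hk₀, hy₀⟩ := hex
          refine ⟨ev (circleMeanT τ k₀ y₀) (IsOpT.circle w hr d hd k₀ y₀ hk₀ hy₀) j, ?_, ?_, ?_⟩
          · intro hw' _ _ _
            exact absurd hw' hw
          · intro _ _ k y hk hy
            obtain rfl : k₀ = k := isRotAt_unique560 hk₀ hk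
            obtain rfl : y₀ = y := isTorusAt_unique560 hy₀ hy
            rfl
          · intro _ h2
            exact absurd ⟨(k₀, y₀), hk₀, hy₀⟩ (h2 hr)
        · refine ⟨0, ?_, ?_, ?_⟩
          · intro hw' _ _ _
            exact absurd hw' hw
          · intro _ _ k y hk hy
            exact absurd ⟨(k, y), hk, hy⟩ hex
          · intro _ _
            rfl
    · refine ⟨0, ?_, ?_, ?_⟩
      · intro _ hd' _ _
        exact absurd hd' hd
      · intro _ hd' _ _ _ _
        exact absurd hd' hd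
      · intro _ _
        rfl
  choose m hm using exM
  have hmC : ∀ j (w : InfinitePlace K) (hw : w.IsComplex) (d : ℝ) (hd : 0 < d)
      (Y : ℝ → ℝ → G K) (hY : IsSphereAt w d Y),
      m j w d = ev (sphereMean Y) (IsOpT.sphere w hw d hd Y hY) j :=
    fun j w hw d hd Y hY => (hm j w d).1 hw hd Y hY
  have hmR : ∀ j (w : InfinitePlace K) (hw : w.IsReal) (t : ℝ) (ht : 0 < t) (k : ℝ → G K)
      (x : G K) (hk : IsRotAt w k) (hx : IsTorusAt w t x),
      m j w t = ev (circleMeanT τ k x) (IsOpT.circle w hw t ht k x hk hx) j :=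
    fun j w hw t ht k x hk hx => (hm j w t).2.1 hw ht k x hk hx
  have hm0 : ∀ j (w : InfinitePlace K) (d : ℝ),
      (w.IsComplex → ¬ ∃ Y : ℝ → ℝ → G K, IsSphereAt w d Y) →
      (w.IsReal → ¬ ∃ kx : (ℝ → G K) × G K, IsRotAt w kx.1 ∧ IsTorusAt w d kx.2) →
      0 < d → m j w d = 0 :=
    fun j w d h1 h2 _ => (hm j w d).2.2 h1 h2
  -- the eigen-equations at the finite places
  have hA : ∀ j v (hv : ¬ v.asIdeal ∣ 𝔫) (g : G K), ∑ h ∈ H0 v, u j (g * h)
      = ((Real.sqrt (Ideal.absNorm v.asIdeal : ℝ) : ℝ) : ℂ) * a j v * u j g := by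
    intro j v hv g
    have h1 := hev (heckeSum (H0 v)) (IsOpT.hecke v hv (H0 v) (hH0 v)) j g
    rw [ha j v hv, mul_div_cancel₀ _ (hqC v)]
    exact h1
  have hB : ∀ j v (hv : ¬ v.asIdeal ∣ 𝔫) (g : G K), u j (g * z0 v) = b j v * u j g := by
    intro j v hv g
    rw [hb j v hv]
    exact hev (shift (z0 v)) (IsOpT.shift v hv (z0 v) (hz0 v)) j g
  have hub : ∀ j v, ¬ v.asIdeal ∣ 𝔫 → ‖b j v‖ = 1 := by
    intro j v hv
    apply norm_eq_one_of_isometry560 R.F (hnorm j)
    have h1 := hadjS v hv (z0 v) (hz0 v) (u j) (u j) (hu j) (hu j)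
    have e : shift (z0 v) (u j) = fun g => b j v * u j g := funext (hB j v hv)
    rw [e] at h1
    exact h1
  refine ⟨ι, u, m, a, b, c,
    { cusp := hu
      norm_one := hnorm
      orth := horth
      eig_complex := ?_
      eig_real := ?_
      hecke := ?_
      central := ?_
      unit_c := ?_
      unit_b := hub
      conj_a := ?_
      bound_a := ?_
      real_m := ?_
      parseval := hpars }⟩
  · -- eig_complex
    intro j w hw d hd Y hY g
    rw [hmC j w hw d hd Y hY]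
    exact hev (sphereMean Y) (IsOpT.sphere w hw d hd Y hY) j g
  · -- eig_real
    intro j w hw t ht k x hk hx g
    rw [hmR j w hw t ht k x hk hx]
    exact hev (circleMeanT τ k x) (IsOpT.circle w hw t ht k x hk hx) j g
  · -- hecke
    intro j v hv
    exact isHeckeEigenAt_of_one129 hv (u j) (hu j).aut.level_inv (a j v) (b j v) (hH0 v)
      (hA j v hv) (hz0 v) (hB j v hv)
  · -- central
    intro j w z hz g
    rw [hc j w z hz]
    exact hev (shift z) (IsOpT.central w z hz) j g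
  · -- unit_c
    intro j w z hz
    apply norm_eq_one_of_isometry560 R.F (hnorm j)
    have h1 := hadjC w z hz (u j) (u j) (hu j) (hu j)
    have e : shift z (u j) = fun g => c j z * u j g := by
      funext g
      rw [hc j w z hz]
      exact hev (shift z) (IsOpT.central w z hz) j g
    rw [e] at h1
    exact h1
  · -- conj_a
    intro j v hv
    have hb1 := hub j v hv
    have hb0 : b j v ≠ 0 := by
      intro h0
      rw [h0, norm_zero] at hb1
      exact zero_ne_one hb1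
    have hinv : ∀ g : G K, u j (g * (z0 v)⁻¹) = (b j v)⁻¹ * u j g := by
      intro g
      have h1 := hB j v hv (g * (z0 v)⁻¹)
      rw [inv_mul_cancel_right] at h1
      rw [h1, ← mul_assoc, inv_mul_cancel₀ hb0, one_mul]
    have h2 := hadjH v hv (H0 v) (z0 v) (hH0 v) (hz0 v) (u j) (u j) (hu j) (hu j)
    have e1 : heckeSum (H0 v) (u j)
        = fun g => ((Real.sqrt (Ideal.absNorm v.asIdeal : ℝ) : ℝ) : ℂ) * a j v * u j g :=
      funext (hA j v hv)
    have e2 : shift (z0 v)⁻¹ (fun g =>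
          ((Real.sqrt (Ideal.absNorm v.asIdeal : ℝ) : ℝ) : ℂ) * a j v * u j g)
        = fun g => ((Real.sqrt (Ideal.absNorm v.asIdeal : ℝ) : ℝ) : ℂ) * a j v * (b j v)⁻¹
            * u j g := by
      funext g
      show ((Real.sqrt (Ideal.absNorm v.asIdeal : ℝ) : ℝ) : ℂ) * a j v * u j (g * (z0 v)⁻¹) = _
      rw [hinv g]
      ring
    rw [e1, e2] at h2
    have h3 := conj_eq_of_heckeAdj560 R.F (hnorm j) hb1 h2
    rw [map_mul, Complex.conj_ofReal] at h3
    have h4 : ((Real.sqrt (Ideal.absNorm v.asIdeal : ℝ) : ℝ) : ℂ) * (starRingEnd ℂ) (a j v)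
        = ((Real.sqrt (Ideal.absNorm v.asIdeal : ℝ) : ℝ) : ℂ)
          * (a j v * (starRingEnd ℂ) (b j v)) := by
      rw [h3]
      ring
    exact mul_left_cancel₀ (hqC v) h4
  · -- bound_a
    intro j v hv
    obtain ⟨C, hC⟩ := (hu j).aut.bdd
    obtain ⟨g₀, hg₀⟩ := exists_ne_zero560 R.F (hnorm j)
    have h1 := norm_le_card_of_eigen560 hC hg₀ (H0 v)
      (((Real.sqrt (Ideal.absNorm v.asIdeal : ℝ) : ℝ) : ℂ) * a j v) (hA j v hv)
    rw [(hH0 v).1, norm_mul, Complex.norm_real, Real.norm_eq_abs, abs_of_pos (hq0 v)] at h1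
    rw [mul_comm]
    exact_mod_cast h1
  · -- real_m
    intro j w d hd
    by_cases hw : w.IsComplex
    · by_cases hex : ∃ Y : ℝ → ℝ → G K, IsSphereAt w d Y
      · obtain ⟨Y, hY⟩ := hex
        apply im_eq_zero_of_selfAdjoint560 R.F (hnorm j)
        have h1 := hadjM w hw d hd Y hY (u j) (u j) (hu j) (hu j)
        have e : sphereMean Y (u j) = fun g => m j w d * u j g := by
          funext g
          rw [hmC j w hw d hd Y hY]
          exact hev (sphereMean Y) (IsOpT.sphere w hw d hd Y hY) j g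
        rw [e] at h1
        exact h1
      · rw [hm0 j w d (fun _ => hex)
          (fun hr => absurd hw (InfinitePlace.not_isComplex_iff_isReal.2 hr)) hd]
        rfl
    · have hr : w.IsReal := InfinitePlace.not_isComplex_iff_isReal.1 hw
      by_cases hex : ∃ kx : (ℝ → G K) × G K, IsRotAt w kx.1 ∧ IsTorusAt w d kx.2
      · obtain ⟨⟨k, x⟩, hk, hx⟩ := hex
        apply im_eq_zero_of_selfAdjoint560 R.F (hnorm j)
        have h1 := hadjMR w hr d hd k x hk hx (u j) (u j) (hu j) (hu j)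
        have e : circleMeanT τ k x (u j) = fun g => m j w d * u j g := by
          funext g
          rw [hmR j w hr d hd k x hk hx]
          exact hev (circleMeanT τ k x) (IsOpT.circle w hr d hd k x hk hx) j g
        rw [e] at h1
        exact h1
      · rw [hm0 j w d (fun hc' => absurd hc' hw) (fun _ => hex) hd]
        rfl

end Fermat.Agent.LT.T2.H560

end
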